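-- Shared q-coefficient plumbing for S49 (part B): linearity of qCoeff on cusp forms,
-- q-coefficient formulas for the Hecke operators on CuspForm (Gamma0 N) k, extensionality,
-- and the identification qIntegralSet = qIntegralLattice = intLattice (weight 2), with
-- finite generation, freeness and Hecke stability.
import Mathlib
import Fermat.Prelude.Def_CuspForm_IntegralLattice
import Fermat.Prelude.Def_CuspForm_IntegralStructure
import Fermat.Prelude.Def_CuspForm_HeckeAlgebra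
import Fermat.Prelude.Thm_ModularFormClass_qCoeff_heckeT
import Fermat.Prelude.Thm_ModularFormClass_qCoeff_heckeU
import Fermat.Prelude.Thm_CongruenceSubgroup_one_mem_strictPeriods_Gamma0
import Fermat.Prelude.Thm_CuspForm_intLattice_fg
import Fermat.Prelude.Thm_CuspForm_mem_intLattice_of_mem_heckeAlgebra
import Fermat.Prelude.Thm_UpperHalfPlane_eq_of_forall_qCoeff_eq

set_option autoImplicit false

open CuspForm CongruenceSubgroup ModularFormClass UpperHalfPlane

namespace Fermat.Agent.S49.QCoeff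

variable {N : ℕ} {k : ℤ}

/-- `1` is a strict period of `Γ₀(N)` (restated from the prelude). -/
theorem one_mem_strictPeriods :
    (1 : ℝ) ∈ (Subgroup.map (Matrix.SpecialLinearGroup.mapGL ℝ) (Gamma0 N)).strictPeriods :=
  CongruenceSubgroup.one_mem_strictPeriods_Gamma0 N

theorem qCoeff_add (f g : CuspForm (Gamma0 N) k) (n : ℕ) :
    qCoeff (⇑(f + g)) n = qCoeff (⇑f) n + qCoeff (⇑g) n := by
  unfold qCoeff
  rw [FunLike.coe_add, ModularForm.qExpansion_add one_pos one_mem_strictPeriods f g, map_add]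

theorem qCoeff_smul (c : ℂ) (f : CuspForm (Gamma0 N) k) (n : ℕ) :
    qCoeff (⇑(c • f)) n = c * qCoeff (⇑f) n := by
  unfold qCoeff
  rw [FunLike.coe_smul, ModularForm.qExpansion_smul one_pos one_mem_strictPeriods c f]
  simp

theorem qCoeff_neg (f : CuspForm (Gamma0 N) k) (n : ℕ) :
    qCoeff (⇑(-f)) n = -qCoeff (⇑f) n := by
  unfold qCoeff
  rw [FunLike.coe_neg, ModularForm.qExpansion_neg one_pos one_mem_strictPeriods f, map_neg]

theorem qCoeff_sub (f g : CuspForm (Gamma0 N) k) (n : ℕ) :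
    qCoeff (⇑(f - g)) n = qCoeff (⇑f) n - qCoeff (⇑g) n := by
  unfold qCoeff
  rw [FunLike.coe_sub, ModularForm.qExpansion_sub one_pos one_mem_strictPeriods f g, map_sub]

theorem qCoeff_zero_form (n : ℕ) : qCoeff (⇑(0 : CuspForm (Gamma0 N) k)) n = 0 := by
  unfold qCoeff
  rw [FunLike.coe_zero, qExpansion_zero, map_zero]

/-- The `n`-th q-coefficient as a `ℂ`-linear functional on cusp forms. -/
noncomputable def qCoeffLin (N : ℕ) (k : ℤ) (n : ℕ) : CuspForm (Gamma0 N) k →ₗ[ℂ] ℂ where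
  toFun f := qCoeff (⇑f) n
  map_add' f g := qCoeff_add f g n
  map_smul' c f := by simpa using qCoeff_smul c f n

@[simp] theorem qCoeffLin_apply (n : ℕ) (f : CuspForm (Gamma0 N) k) :
    qCoeffLin N k n f = qCoeff (⇑f) n := rfl

theorem qCoeff_zsmul (m : ℤ) (f : CuspForm (Gamma0 N) k) (n : ℕ) :
    qCoeff (⇑(m • f)) n = (m : ℂ) * qCoeff (⇑f) n := by
  have h := map_zsmul (qCoeffLin N k n) m f
  rw [qCoeffLin_apply, qCoeffLin_apply, zsmul_eq_mul] at h
  exact h

theorem qCoeff_nsmul (m : ℕ) (f : CuspForm (Gamma0 N) k) (n : ℕ) :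
    qCoeff (⇑(m • f)) n = (m : ℂ) * qCoeff (⇑f) n := by
  have h := map_nsmul (qCoeffLin N k n) m f
  rw [qCoeffLin_apply, qCoeffLin_apply, nsmul_eq_mul] at h
  exact h

theorem qCoeff_sum {ι : Type*} (s : Finset ι) (f : ι → CuspForm (Gamma0 N) k) (n : ℕ) :
    qCoeff (⇑(∑ i ∈ s, f i)) n = ∑ i ∈ s, qCoeff (⇑(f i)) n := by
  have h := map_sum (qCoeffLin N k n) f s
  simp only [qCoeffLin_apply] at h
  exact h

/-- The constant q-coefficient of a cusp form vanishes. -/
theorem qCoeff_zero (f : CuspForm (Gamma0 N) k) : qCoeff (⇑f) 0 = 0 :=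
  CuspFormClass.qExpansion_coeff_zero f one_pos one_mem_strictPeriods

/-- Two cusp forms on `Γ₀(N)` with the same q-coefficients are equal. -/
theorem ext_qCoeff {f g : CuspForm (Gamma0 N) k}
    (h : ∀ n : ℕ, qCoeff (⇑f) n = qCoeff (⇑g) n) : f = g := by
  have hsub : ∀ n : ℕ, qCoeff (⇑(f - g)) n = 0 := fun n => by rw [qCoeff_sub, h n, sub_self]
  have hq : qExpansion 1 (⇑(f - g)) = 0 := by
    ext n
    simpa [qCoeff] using hsub n
  have hmf : (ModularFormClass.modularForm (f - g) : ModularForm (Gamma0 N) k) = 0 :=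
    (ModularForm.qExpansion_eq_zero_iff one_pos one_mem_strictPeriods _).1 hq
  have hfg : f - g = 0 := by
    ext z
    have := congrArg (fun F : ModularForm (Gamma0 N) k => F z) hmf
    simpa using this
  exact sub_eq_zero.1 hfg

theorem eq_zero_of_qCoeff {f : CuspForm (Gamma0 N) k} (h : ∀ n : ℕ, qCoeff (⇑f) n = 0) :
    f = 0 :=
  ext_qCoeff fun n => by rw [h n, qCoeff_zero_form]

/-- q-coefficients of `T_ℓ f` for `ℓ ∤ N`, general weight. -/
theorem qCoeff_heckeTLin' {ℓ : ℕ} (hℓ : ℓ.Prime) (hℓN : ¬ ℓ ∣ N) (f : CuspForm (Gamma0 N) k)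
    (n : ℕ) :
    qCoeff (⇑(CuspForm.heckeTLin k hℓ hℓN f)) n =
      qCoeff (⇑f) (n * ℓ) + if ℓ ∣ n then (ℓ : ℂ) ^ (k - 1) * qCoeff (⇑f) (n / ℓ) else 0 := by
  rw [CuspForm.coe_heckeTLin_apply,
    ModularFormClass.qCoeff_heckeT f one_mem_strictPeriods hℓ.ne_zero n, ModularForm.coeffHeckeT]

/-- q-coefficients of `U_q f` for `q ∣ N`, general weight. -/
theorem qCoeff_heckeULin' [NeZero N] {q : ℕ} (hqN : q ∣ N) (f : CuspForm (Gamma0 N) k) (n : ℕ) :
    qCoeff (⇑(CuspForm.heckeULin k hqN f)) n = qCoeff (⇑f) (n * q) := by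
  have hq0 : q ≠ 0 := fun h => NeZero.ne N (by simpa [h] using hqN)
  rw [CuspForm.coe_heckeULin_apply,
    ModularFormClass.qCoeff_heckeU f one_mem_strictPeriods hq0 n, ModularForm.coeffHeckeU]

/-- q-coefficients of `T_ℓ f` for `ℓ ∤ N` in weight 2. -/
theorem qCoeff_heckeTLin {ℓ : ℕ} (hℓ : ℓ.Prime) (hℓN : ¬ ℓ ∣ N) (f : CuspForm (Gamma0 N) 2)
    (n : ℕ) :
    qCoeff (⇑(CuspForm.heckeTLin 2 hℓ hℓN f)) n =
      qCoeff (⇑f) (n * ℓ) + if ℓ ∣ n then (ℓ : ℂ) * qCoeff (⇑f) (n / ℓ) else 0 := by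
  rw [qCoeff_heckeTLin']
  norm_num

/-- q-coefficients of `U_q f` for `q ∣ N` in weight 2. -/
theorem qCoeff_heckeULin [NeZero N] {q : ℕ} (hqN : q ∣ N) (f : CuspForm (Gamma0 N) 2) (n : ℕ) :
    qCoeff (⇑(CuspForm.heckeULin 2 hqN f)) n = qCoeff (⇑f) (n * q) :=
  qCoeff_heckeULin' hqN f n

/-! ### The integral lattice in weight 2 -/

theorem mem_qIntegralSet_iff (f : CuspForm (Gamma0 N) 2) :
    f ∈ qIntegralSet N ↔ ∀ n : ℕ, ∃ m : ℤ, qCoeff (⇑f) n = (m : ℂ) := by
  simp only [qIntegralSet, Set.mem_ofPred_eq, Subring.mem_bot]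
  constructor
  · intro h n
    obtain ⟨m, hm⟩ := h n
    exact ⟨m, by simpa using hm.symm⟩
  · intro h n
    obtain ⟨m, hm⟩ := h n
    exact ⟨m, by simpa using hm.symm⟩

theorem zero_mem_qIntegralSet : (0 : CuspForm (Gamma0 N) 2) ∈ qIntegralSet N :=
  (mem_qIntegralSet_iff _).2 fun n => ⟨0, by rw [qCoeff_zero_form]; simp⟩

theorem add_mem_qIntegralSet {f g : CuspForm (Gamma0 N) 2} (hf : f ∈ qIntegralSet N)
    (hg : g ∈ qIntegralSet N) : f + g ∈ qIntegralSet N := by
  rw [mem_qIntegralSet_iff] at *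
  intro n
  obtain ⟨a, ha⟩ := hf n
  obtain ⟨b, hb⟩ := hg n
  exact ⟨a + b, by rw [qCoeff_add, ha, hb]; push_cast; rfl⟩

theorem neg_mem_qIntegralSet {f : CuspForm (Gamma0 N) 2} (hf : f ∈ qIntegralSet N) :
    -f ∈ qIntegralSet N := by
  rw [mem_qIntegralSet_iff] at *
  intro n
  obtain ⟨a, ha⟩ := hf n
  exact ⟨-a, by rw [qCoeff_neg, ha]; push_cast; rfl⟩

theorem sub_mem_qIntegralSet {f g : CuspForm (Gamma0 N) 2} (hf : f ∈ qIntegralSet N)
    (hg : g ∈ qIntegralSet N) : f - g ∈ qIntegralSet N := by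
  rw [sub_eq_add_neg]
  exact add_mem_qIntegralSet hf (neg_mem_qIntegralSet hg)

theorem zsmul_mem_qIntegralSet (m : ℤ) {f : CuspForm (Gamma0 N) 2} (hf : f ∈ qIntegralSet N) :
    m • f ∈ qIntegralSet N := by
  rw [mem_qIntegralSet_iff] at *
  intro n
  obtain ⟨a, ha⟩ := hf n
  exact ⟨m * a, by rw [qCoeff_zsmul, ha]; push_cast; rfl⟩

/-- The set of q-integral forms, as an additive subgroup. -/
def qIntegralAddSubgroup (N : ℕ) : AddSubgroup (CuspForm (Gamma0 N) 2) where
  carrier := qIntegralSet N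
  zero_mem' := zero_mem_qIntegralSet
  add_mem' := add_mem_qIntegralSet
  neg_mem' := neg_mem_qIntegralSet

/-- The `ℤ`-span of the q-integral forms is just the set of q-integral forms. -/
theorem mem_qIntegralLattice_iff (f : CuspForm (Gamma0 N) 2) :
    f ∈ qIntegralLattice N ↔ f ∈ qIntegralSet N := by
  constructor
  · intro hf
    unfold qIntegralLattice at hf
    induction hf using Submodule.span_induction with
    | mem x hx => exact hx
    | zero => exact zero_mem_qIntegralSet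
    | add x y _ _ hx hy => exact add_mem_qIntegralSet hx hy
    | smul a x _ hx => exact zsmul_mem_qIntegralSet a hx
  · intro hf
    exact Submodule.subset_span hf

theorem coe_qIntegralLattice :
    ((qIntegralLattice N : Submodule ℤ (CuspForm (Gamma0 N) 2)) : Set (CuspForm (Gamma0 N) 2)) =
      qIntegralSet N :=
  Set.ext fun f => mem_qIntegralLattice_iff f

theorem qIntegralLattice_eq_intLattice : qIntegralLattice N = CuspForm.intLattice N 2 := by
  unfold qIntegralLattice CuspForm.intLattice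
  congr 1
  ext f
  exact mem_qIntegralSet_iff f

theorem mem_intLattice_iff (f : CuspForm (Gamma0 N) 2) :
    f ∈ CuspForm.intLattice N 2 ↔ f ∈ qIntegralSet N := by
  rw [← qIntegralLattice_eq_intLattice, mem_qIntegralLattice_iff]

theorem mem_qIntegralLattice_iff_forall (f : CuspForm (Gamma0 N) 2) :
    f ∈ qIntegralLattice N ↔ ∀ n : ℕ, ∃ m : ℤ, qCoeff (⇑f) n = (m : ℂ) := by
  rw [mem_qIntegralLattice_iff, mem_qIntegralSet_iff]

theorem qIntegralLattice_fg [NeZero N] : (qIntegralLattice N).FG := by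
  rw [qIntegralLattice_eq_intLattice]
  exact CuspForm.intLattice_fg N 2

/-- Cusp forms are torsion-free as an additive group (they form a complex vector space). -/
instance instIsAddTorsionFreeCuspForm : IsAddTorsionFree (CuspForm (Gamma0 N) k) where
  nsmul_right_injective n hn a b hab := by
    have h : (n : ℂ) • a = (n : ℂ) • b := by
      simp only [Nat.cast_smul_eq_nsmul]
      exact hab
    exact smul_right_injective _ (Nat.cast_ne_zero.mpr hn) h

instance instFiniteQIntegralLattice [NeZero N] : Module.Finite ℤ ↥(qIntegralLattice N) :=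
  Module.Finite.iff_fg.2 qIntegralLattice_fg

instance instFreeQIntegralLattice [NeZero N] : Module.Free ℤ ↥(qIntegralLattice N) :=
  Module.free_of_finite_type_torsion_free'

/-- `HasIntegralBasis` restated with the lattice. -/
theorem span_qIntegralLattice_eq_top (h : CuspForm.HasIntegralBasis N) :
    Submodule.span ℂ ((qIntegralLattice N : Submodule ℤ (CuspForm (Gamma0 N) 2)) :
      Set (CuspForm (Gamma0 N) 2)) = ⊤ := by
  rw [coe_qIntegralLattice]
  exact h

/-- `T_ℓ` preserves q-integral forms. -/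
theorem heckeTLin_mem_qIntegralSet {ℓ : ℕ} (hℓ : ℓ.Prime) (hℓN : ¬ ℓ ∣ N)
    {f : CuspForm (Gamma0 N) 2} (hf : f ∈ qIntegralSet N) :
    CuspForm.heckeTLin 2 hℓ hℓN f ∈ qIntegralSet N := by
  rw [mem_qIntegralSet_iff] at *
  intro n
  rw [qCoeff_heckeTLin]
  obtain ⟨a, ha⟩ := hf (n * ℓ)
  obtain ⟨b, hb⟩ := hf (n / ℓ)
  by_cases hd : ℓ ∣ n
  · exact ⟨a + ℓ * b, by rw [if_pos hd, ha, hb]; push_cast; rfl⟩
  · exact ⟨a, by rw [if_neg hd, ha, add_zero]⟩

/-- `U_q` preserves q-integral forms. -/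
theorem heckeULin_mem_qIntegralSet [NeZero N] {q : ℕ} (hqN : q ∣ N)
    {f : CuspForm (Gamma0 N) 2} (hf : f ∈ qIntegralSet N) :
    CuspForm.heckeULin 2 hqN f ∈ qIntegralSet N := by
  rw [mem_qIntegralSet_iff] at *
  intro n
  rw [qCoeff_heckeULin]
  exact hf (n * q)

/-- Every element of the Hecke algebra preserves q-integral forms. -/
theorem heckeAlgebra_mem_qIntegralSet [NeZero N] {S : Set ℕ}
    {t : Module.End ℂ (CuspForm (Gamma0 N) 2)} (ht : t ∈ CuspForm.heckeAlgebra N 2 S)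
    {f : CuspForm (Gamma0 N) 2} (hf : f ∈ qIntegralSet N) : t f ∈ qIntegralSet N := by
  rw [← mem_intLattice_iff] at *
  exact CuspForm.mem_intLattice_of_mem_heckeAlgebra (by norm_num) ht hf

end Fermat.Agent.S49.QCoeff
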