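/-
S49 part (C): a simultaneous eigenvector of the weight-2 Hecke operators on `Γ₀(N)` has
nonvanishing first q-coefficient, and its normalisation is a normalised eigenform.
-/
import Mathlib
import Fermat.Prelude.Def_CuspForm_HeckeAlgebra
import Fermat.Prelude.Def_FLTPrelim_Modularity
import Fermat.Prelude.Def_FormalHecke_Eigensystem
import Fermat.Prelude.Thm_ModularFormClass_qCoeff_heckeT
import Fermat.Prelude.Thm_ModularFormClass_qCoeff_heckeU
import Fermat.Prelude.Thm_CongruenceSubgroup_one_mem_strictPeriods_Gamma0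

set_option autoImplicit false

open CuspForm ModularFormClass CongruenceSubgroup UpperHalfPlane

namespace Fermat.Agent.S49.Eigenform

variable {N : ℕ}

/-! ### (C0) basic q-coefficient facts for cusp forms on `Γ₀(N)` -/

theorem qCoeff_smul {k : ℤ} (c : ℂ) (f : CuspForm (Gamma0 N) k) (n : ℕ) :
    qCoeff (c • f : CuspForm (Gamma0 N) k) n = c * qCoeff f n := by
  have h := ModularForm.qExpansion_smul (h := 1) one_pos (one_mem_strictPeriods_Gamma0 N) c f
  have h2 : ((c • f : CuspForm (Gamma0 N) k) : ℍ → ℂ) = c • (f : ℍ → ℂ) := rfl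
  unfold qCoeff
  rw [h2, h]
  simp

theorem qCoeff_add {k : ℤ} (f g : CuspForm (Gamma0 N) k) (n : ℕ) :
    qCoeff (f + g : CuspForm (Gamma0 N) k) n = qCoeff f n + qCoeff g n := by
  have h := ModularForm.qExpansion_add (h := 1) one_pos (one_mem_strictPeriods_Gamma0 N) f g
  have h2 : ((f + g : CuspForm (Gamma0 N) k) : ℍ → ℂ) = (f : ℍ → ℂ) + (g : ℍ → ℂ) := rfl
  unfold qCoeff
  rw [h2, h]
  simp

theorem qCoeff_zero_eq_zero {k : ℤ} (f : CuspForm (Gamma0 N) k) : qCoeff f 0 = 0 :=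
  CuspFormClass.qExpansion_coeff_zero (k := k) (h := 1) f one_pos (one_mem_strictPeriods_Gamma0 N)

theorem eq_zero_of_qCoeff {k : ℤ} (f : CuspForm (Gamma0 N) k) (h : ∀ n, qCoeff f n = 0) :
    f = 0 := by
  have hq : qExpansion 1 f = 0 := by
    ext n
    simpa [qCoeff] using h n
  have : Fact (IsCusp OnePoint.infty (Subgroup.map (Matrix.SpecialLinearGroup.mapGL ℝ) (Gamma0 N))) :=
    ⟨Subgroup.isCusp_of_mem_strictPeriods one_pos (one_mem_strictPeriods_Gamma0 N)⟩
  have h0 := (UpperHalfPlane.qExpansion_eq_zero_iff (h := 1) one_pos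
    (SlashInvariantFormClass.periodic_comp_ofComplex f (one_mem_strictPeriods_Gamma0 N))
    (ModularFormClass.holo f) (ModularFormClass.bdd_at_infty f)).mp hq
  ext z
  exact congrFun h0 z

/-! ### (C1) q-coefficients of the Hecke operators -/

theorem qCoeff_heckeTLin {ℓ : ℕ} (hℓ : ℓ.Prime) (hℓN : ¬ ℓ ∣ N)
    (f : CuspForm (Gamma0 N) 2) (n : ℕ) :
    qCoeff (heckeTLin 2 hℓ hℓN f) n
      = qCoeff f (n * ℓ) + if ℓ ∣ n then (ℓ : ℂ) * qCoeff f (n / ℓ) else 0 := by
  have h := ModularFormClass.qCoeff_heckeT (k := 2) f (one_mem_strictPeriods_Gamma0 N)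
    hℓ.ne_zero n
  rw [CuspForm.coe_heckeTLin_apply, h, ModularForm.coeffHeckeT_apply]
  norm_num

theorem qCoeff_heckeULin [NeZero N] {q : ℕ} (hqN : q ∣ N)
    (f : CuspForm (Gamma0 N) 2) (n : ℕ) :
    qCoeff (heckeULin 2 hqN f) n = qCoeff f (n * q) := by
  have hq0 : q ≠ 0 := fun h => NeZero.ne N (by simpa [h] using hqN)
  have h := ModularFormClass.qCoeff_heckeU (k := 2) f (one_mem_strictPeriods_Gamma0 N) hq0 n
  rw [CuspForm.coe_heckeULin_apply, h, ModularForm.coeffHeckeU_apply]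

/-! ### (C2) formal Hecke eigensystems are multiplicative and recursive -/

theorem isRecursive_of_isEigensystem {R : Type*} [CommRing R] {e a : ℕ → R}
    (h : FormalHecke.IsEigensystem e a) : FormalHecke.IsRecursive e a := by
  obtain ⟨h1, hrec⟩ := h
  refine ⟨h1, ?_, ?_⟩
  · intro m
    induction m using Nat.strong_induction_on with
    | _ m ih =>
      intro n hmn
      rcases Nat.lt_or_ge m 2 with hm | hm
      · interval_cases m
        · have hn : n = 1 := by simpa using hmn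
          subst hn; simp [h1]
        · simp [h1]
      · have hℓ : m.minFac.Prime := Nat.minFac_prime (by omega)
        obtain ⟨m', hm'⟩ : m.minFac ∣ m := Nat.minFac_dvd m
        set ℓ := m.minFac with hℓdef
        have hm'pos : 0 < m' := by
          rcases Nat.eq_zero_or_pos m' with h0 | h0
          · subst h0; omega
          · exact h0
        have hm'lt : m' < m := by
          rw [hm']
          exact lt_mul_of_one_lt_left hm'pos hℓ.one_lt
        have hcop : (ℓ * m').Coprime n := hm' ▸ hmn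
        have hcop' : m'.Coprime n := hcop.coprime_mul_left
        have hℓn : ¬ ℓ ∣ n := by
          intro hd
          have : ℓ ∣ Nat.gcd (ℓ * m') n := Nat.dvd_gcd (dvd_mul_right ℓ m') hd
          rw [hcop] at this
          exact hℓ.one_lt.ne' (Nat.dvd_one.mp this)
        have e1 := hrec ℓ hℓ (m' * n)
        have e2 := hrec ℓ hℓ m'
        have ihm' := ih m' hm'lt n hcop'
        rw [hm', mul_assoc]
        by_cases hdiv : ℓ ∣ m'
        · have hdiv' : ℓ ∣ m' * n := dvd_mul_of_dvd_left hdiv n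
          rw [if_pos hdiv'] at e1
          rw [if_pos hdiv] at e2
          have hdivmul : m' * n / ℓ = (m' / ℓ) * n := (Nat.div_mul_right_comm hdiv n).symm
          have hlt2 : m' / ℓ < m := lt_of_le_of_lt (Nat.div_le_self m' ℓ) hm'lt
          have hcop2 : (m' / ℓ).Coprime n :=
            Nat.Coprime.coprime_dvd_left (Nat.div_dvd_of_dvd hdiv) hcop'
          have ih2 := ih (m' / ℓ) hlt2 n hcop2
          rw [hdivmul, ih2, ihm'] at e1
          linear_combination e1 - a n * e2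
        · have hdiv' : ¬ ℓ ∣ m' * n := by
            rw [hℓ.dvd_mul]; tauto
          rw [if_neg hdiv', mul_zero, add_zero] at e1
          rw [if_neg hdiv, mul_zero, add_zero] at e2
          rw [e1, ihm', e2]; ring
  · intro ℓ r hℓ
    have h2 := hrec ℓ hℓ (ℓ ^ (r + 1))
    have hd : ℓ ∣ ℓ ^ (r + 1) := dvd_pow_self ℓ (Nat.succ_ne_zero r)
    have hdiv : ℓ ^ (r + 1) / ℓ = ℓ ^ r := by
      rw [pow_succ, Nat.mul_div_cancel _ hℓ.pos]
    rw [if_pos hd, hdiv, ← pow_succ'] at h2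
    linear_combination h2

/-! ### (C3) simultaneous eigenvectors give normalised eigenforms -/

/-- The "character" of weight-2 forms of level `N`: `ℓ ↦ ℓ` for `ℓ ∤ N` and `0` for `ℓ ∣ N`. -/
noncomputable def weightTwoChar (N : ℕ) : ℕ → ℂ := fun ℓ => if ℓ ∣ N then 0 else (ℓ : ℂ)

theorem isNormalizedEigenform_of_isEigensystem (f : CuspForm (Gamma0 N) 2)
    (h : FormalHecke.IsEigensystem (weightTwoChar N) (qCoeff f)) : f.IsNormalizedEigenform := by
  obtain ⟨h1, hmul, hrec⟩ := isRecursive_of_isEigensystem h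
  refine ⟨h1, hmul, ?_, ?_⟩
  · intro p r hp hpN
    have := hrec p r hp
    simpa [weightTwoChar, hpN] using this
  · intro p r hp hpN
    have := hrec p r hp
    simpa [weightTwoChar, hpN] using this

section Eigenvector

variable [NeZero N] (w : CuspForm (Gamma0 N) 2)

/-- Coefficient form of the eigen-equations. -/
theorem qCoeff_relation_of_eigenvector
    (hT : ∀ (ℓ : ℕ) (hℓ : ℓ.Prime) (hℓN : ¬ ℓ ∣ N), ∃ c : ℂ, heckeTLin 2 hℓ hℓN w = c • w)
    (hU : ∀ (q : ℕ) (_ : q.Prime) (hqN : q ∣ N), ∃ c : ℂ, heckeULin 2 hqN w = c • w)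
    (ℓ : ℕ) (hℓ : ℓ.Prime) :
    ∃ c : ℂ, ∀ n : ℕ, qCoeff w (ℓ * n)
      + weightTwoChar N ℓ * (if ℓ ∣ n then qCoeff w (n / ℓ) else 0) = c * qCoeff w n := by
  by_cases hℓN : ℓ ∣ N
  · obtain ⟨c, hc⟩ := hU ℓ hℓ hℓN
    refine ⟨c, fun n => ?_⟩
    have h := qCoeff_heckeULin hℓN w n
    rw [hc, qCoeff_smul] at h
    simp only [weightTwoChar, if_pos hℓN, zero_mul, add_zero]
    rw [mul_comm ℓ n, h]
  · obtain ⟨c, hc⟩ := hT ℓ hℓ hℓN
    refine ⟨c, fun n => ?_⟩
    have h := qCoeff_heckeTLin hℓ hℓN w n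
    rw [hc, qCoeff_smul] at h
    simp only [weightTwoChar, if_neg hℓN]
    rw [mul_comm ℓ n, h]
    split_ifs <;> ring

theorem qCoeff_one_ne_zero_of_eigenvector (hw : w ≠ 0)
    (hT : ∀ (ℓ : ℕ) (hℓ : ℓ.Prime) (hℓN : ¬ ℓ ∣ N), ∃ c : ℂ, heckeTLin 2 hℓ hℓN w = c • w)
    (hU : ∀ (q : ℕ) (_ : q.Prime) (hqN : q ∣ N), ∃ c : ℂ, heckeULin 2 hqN w = c • w) :
    qCoeff w 1 ≠ 0 := by
  intro h1
  apply hw
  apply eq_zero_of_qCoeff
  intro n
  induction n using Nat.strong_induction_on with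
  | _ n ih =>
    rcases Nat.lt_or_ge n 2 with hn | hn
    · interval_cases n
      · exact qCoeff_zero_eq_zero w
      · exact h1
    · have hℓ : n.minFac.Prime := Nat.minFac_prime (by omega)
      obtain ⟨m', hm'⟩ : n.minFac ∣ n := Nat.minFac_dvd n
      set ℓ := n.minFac with hℓdef
      have hm'pos : 0 < m' := by
        rcases Nat.eq_zero_or_pos m' with h0 | h0
        · subst h0; omega
        · exact h0
      have hm'lt : m' < n := by
        rw [hm']
        exact lt_mul_of_one_lt_left hm'pos hℓ.one_lt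
      obtain ⟨c, hc⟩ := qCoeff_relation_of_eigenvector w hT hU ℓ hℓ
      have h := hc m'
      rw [ih m' hm'lt, mul_zero] at h
      have h2 : (if ℓ ∣ m' then qCoeff w (m' / ℓ) else 0) = 0 := by
        split_ifs
        · exact ih _ (lt_of_le_of_lt (Nat.div_le_self m' ℓ) hm'lt)
        · rfl
      rw [h2, mul_zero, add_zero] at h
      rw [hm']; exact h

/-- **Main result of part (C)**: a nonzero simultaneous eigenvector `w` of all `T_ℓ` (`ℓ ∤ N`) and
`U_q` (`q ∣ N`) has `a₁(w) ≠ 0`, its normalisation is a normalised eigenform, and the eigenvalue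
of each Hecke operator is the corresponding q-coefficient of the normalisation. -/
theorem normalizedEigenform_of_eigenvector (hw : w ≠ 0)
    (hT : ∀ (ℓ : ℕ) (hℓ : ℓ.Prime) (hℓN : ¬ ℓ ∣ N), ∃ c : ℂ, heckeTLin 2 hℓ hℓN w = c • w)
    (hU : ∀ (q : ℕ) (_ : q.Prime) (hqN : q ∣ N), ∃ c : ℂ, heckeULin 2 hqN w = c • w) :
    qCoeff w 1 ≠ 0 ∧ ((qCoeff w 1)⁻¹ • w).IsNormalizedEigenform ∧
      (∀ (ℓ : ℕ) (hℓ : ℓ.Prime) (hℓN : ¬ ℓ ∣ N),
        heckeTLin 2 hℓ hℓN w = qCoeff ((qCoeff w 1)⁻¹ • w : CuspForm (Gamma0 N) 2) ℓ • w) ∧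
      (∀ (q : ℕ) (_ : q.Prime) (hqN : q ∣ N),
        heckeULin 2 hqN w = qCoeff ((qCoeff w 1)⁻¹ • w : CuspForm (Gamma0 N) 2) q • w) := by
  have h1 := qCoeff_one_ne_zero_of_eigenvector w hw hT hU
  -- the eigenvalue at `ℓ` is `a_ℓ / a_1`
  have key : ∀ (ℓ : ℕ) (hℓ : ℓ.Prime) (c : ℂ),
      (∀ n : ℕ, qCoeff w (ℓ * n)
        + weightTwoChar N ℓ * (if ℓ ∣ n then qCoeff w (n / ℓ) else 0) = c * qCoeff w n) →
      c = qCoeff ((qCoeff w 1)⁻¹ • w : CuspForm (Gamma0 N) 2) ℓ := by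
    intro ℓ hℓ c hc
    have h := hc 1
    have hnd : ¬ ℓ ∣ 1 := by
      rw [Nat.dvd_one]; exact hℓ.one_lt.ne'
    rw [if_neg hnd, mul_zero, add_zero, mul_one] at h
    rw [qCoeff_smul, h]
    field_simp
  refine ⟨h1, ?_, ?_, ?_⟩
  · apply isNormalizedEigenform_of_isEigensystem
    refine ⟨?_, ?_⟩
    · rw [qCoeff_smul]; exact inv_mul_cancel₀ h1
    · intro ℓ hℓ n
      obtain ⟨c, hc⟩ := qCoeff_relation_of_eigenvector w hT hU ℓ hℓ
      have hcℓ := key ℓ hℓ c hc
      have h := hc n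
      simp only [qCoeff_smul] at hcℓ ⊢
      rw [← hcℓ]
      split_ifs at h ⊢ with hd
      · linear_combination (qCoeff w 1)⁻¹ * h
      · linear_combination (qCoeff w 1)⁻¹ * h
  · intro ℓ hℓ hℓN
    obtain ⟨c, hc⟩ := hT ℓ hℓ hℓN
    rw [hc]
    congr 1
    apply key ℓ hℓ c
    intro n
    have h := qCoeff_heckeTLin hℓ hℓN w n
    rw [hc, qCoeff_smul] at h
    simp only [weightTwoChar, if_neg hℓN]
    rw [mul_comm ℓ n, h]
    split_ifs <;> ring
  · intro q hq hqN
    obtain ⟨c, hc⟩ := hU q hq hqN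
    rw [hc]
    congr 1
    apply key q hq c
    intro n
    have h := qCoeff_heckeULin hqN w n
    rw [hc, qCoeff_smul] at h
    simp only [weightTwoChar, if_pos hqN, zero_mul, add_zero]
    rw [mul_comm q n, h]

/-- Variant of `normalizedEigenform_of_eigenvector` with the hypothesis phrased for all elements
of the full Hecke algebra `heckeAlgebra N 2 ∅`. -/
theorem normalizedEigenform_of_heckeAlgebra_eigenvector (hw : w ≠ 0)
    (h : ∀ t ∈ heckeAlgebra N 2 (∅ : Set ℕ), ∃ c : ℂ, t w = c • w) :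
    qCoeff w 1 ≠ 0 ∧ ((qCoeff w 1)⁻¹ • w).IsNormalizedEigenform ∧
      (∀ (ℓ : ℕ) (hℓ : ℓ.Prime) (hℓN : ¬ ℓ ∣ N),
        heckeTLin 2 hℓ hℓN w = qCoeff ((qCoeff w 1)⁻¹ • w : CuspForm (Gamma0 N) 2) ℓ • w) ∧
      (∀ (q : ℕ) (_ : q.Prime) (hqN : q ∣ N),
        heckeULin 2 hqN w = qCoeff ((qCoeff w 1)⁻¹ • w : CuspForm (Gamma0 N) 2) q • w) :=
  normalizedEigenform_of_eigenvector w hw
    (fun _ hℓ hℓN => h _ (heckeTLin_mem_heckeAlgebra hℓ hℓN (Set.notMem_empty _)))
    (fun _ hq hqN => h _ (heckeULin_mem_heckeAlgebra hq hqN (Set.notMem_empty _)))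

end Eigenvector

end Fermat.Agent.S49.Eigenform
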