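-- Abstract Deligne–Serre lifting lemma (for S49): a commutative ring `T` acting on a complex
-- vector space `V` preserving a finitely generated spanning lattice `L`, together with an element
-- `f₀ ∈ L` that is an eigenvector modulo `p L` with integer eigenvalues, yields a genuine
-- simultaneous eigenvector whose eigencharacter takes values in the algebraic integers and is
-- congruent to the mod-`p` eigenvalues modulo a maximal ideal containing `p`.
import Mathlib

set_option autoImplicit false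

namespace Fermat.Agent.S49.DeligneSerre

open Polynomial

variable {V : Type*} [AddCommGroup V] [Module ℂ V]

/-- A spanning finitely generated lattice forces finite dimensionality. -/
theorem finite_of_lattice (L : Submodule ℤ V) (hLfg : L.FG)
    (hLspan : Submodule.span ℂ (L : Set V) = ⊤) : Module.Finite ℂ V := by
  obtain ⟨s, hs⟩ := hLfg
  refine ⟨⟨s, ?_⟩⟩
  rw [eq_top_iff, ← hLspan, Submodule.span_le]
  intro x hx
  have hx' : x ∈ Submodule.span ℤ (s : Set V) := by rw [hs]; exact hx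
  exact Submodule.span_subset_span ℤ ℂ (s : Set V) hx'

/-- A `ℂ`-linear endomorphism vanishing on a spanning lattice is zero. -/
theorem eq_zero_of_forall_mem_lattice (L : Submodule ℤ V)
    (hLspan : Submodule.span ℂ (L : Set V) = ⊤) (e : Module.End ℂ V)
    (h : ∀ x ∈ L, e x = 0) : e = 0 := by
  apply LinearMap.ext
  intro v
  have hv : v ∈ Submodule.span ℂ (L : Set V) := by rw [hLspan]; trivial
  induction hv using Submodule.span_induction with
  | mem x hx => simpa using h x hx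
  | zero => simp
  | add x y _ _ hx hy => simp [hx, hy]
  | smul a x _ hx => simp [hx]

/-- An endomorphism preserving a spanning f.g. lattice is integral over `ℤ`. -/
theorem isIntegral_of_preserves_lattice (L : Submodule ℤ V) (hLfg : L.FG)
    (hLspan : Submodule.span ℂ (L : Set V) = ⊤) (e : Module.End ℂ V)
    (he : ∀ x ∈ L, e x ∈ L) : IsIntegral ℤ e := by
  have : Module.Finite ℤ L := Module.Finite.iff_fg.2 hLfg
  let eL : Module.End ℤ L := (e.restrictScalars ℤ).restrict he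
  obtain ⟨P, hPmonic, hP⟩ := LinearMap.exists_monic_and_aeval_eq_zero ℤ eL
  refine ⟨P, hPmonic, ?_⟩
  change Polynomial.aeval e P = 0
  -- show `P(e) = 0` by checking on the lattice
  have key : ∀ (Q : ℤ[X]) (x : L), (Polynomial.aeval e Q) (x : V) = ((Polynomial.aeval eL Q) x : V) := by
    intro Q x
    induction Q using Polynomial.induction_on' with
    | add p q hp hq => simp [hp, hq]
    | monomial n a =>
      simp only [Polynomial.aeval_monomial]
      have hpow : ∀ (n : ℕ) (y : L), (e ^ n) (y : V) = ((eL ^ n) y : V) := by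
        intro n
        induction n with
        | zero => intro y; simp
        | succ k ih =>
          intro y
          rw [pow_succ, pow_succ, Module.End.mul_apply, Module.End.mul_apply]
          have : (e (y : V)) = ((eL y : L) : V) := rfl
          rw [this, ih]
      simp [hpow]
  apply eq_zero_of_forall_mem_lattice L hLspan
  intro x hx
  have := key P ⟨x, hx⟩
  rw [hP] at this
  simpa using this

/-- For a finite-dimensional commutative `ℂ`-algebra `A` acting faithfully on a finite-dimensional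
space `V`, every prime ideal `M` of `A` is the kernel of a character `χ : A → ℂ` admitting a
simultaneous eigenvector. -/
theorem exists_eigenvector_of_isPrime {A : Type*} [CommRing A] [Algebra ℂ A] [Module.Finite ℂ A]
    {V : Type*} [AddCommGroup V] [Module ℂ V] [Module A V] [IsScalarTower ℂ A V]
    [Module.Finite ℂ V]
    (hfaith : ∀ a : A, (∀ v : V, a • v = 0) → a = 0) (M : Ideal A) [hM : M.IsPrime] :
    ∃ (χ : A →ₐ[ℂ] ℂ) (w : V), w ≠ 0 ∧ RingHom.ker χ = M ∧ ∀ a : A, a • w = χ a • w := by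
  have hArt : IsArtinianRing A := IsArtinianRing.of_finite ℂ A
  have hNoe : IsNoetherianRing A := IsNoetherianRing.of_finite ℂ A
  have hMmax : M.IsMaximal := IsArtinianRing.isMaximal_of_isPrime M
  have hfin : Module.Finite A V := Module.Finite.of_restrictScalars_finite ℂ A V
  have hann : Module.annihilator A V = ⊥ := by
    rw [eq_bot_iff]
    intro a ha
    rw [Module.mem_annihilator] at ha
    exact hfaith a ha
  have hmin : M ∈ (Module.annihilator A V).minimalPrimes := by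
    rw [hann]
    refine ⟨⟨hM, bot_le⟩, ?_⟩
    rintro q ⟨hq, -⟩ hqM
    have hqmax : q.IsMaximal := IsArtinianRing.isMaximal_of_isPrime q
    exact (hqmax.eq_of_le hM.ne_top hqM).ge
  have hass : M ∈ associatedPrimes A V :=
    Module.associatedPrimes.minimalPrimes_annihilator_subset_associatedPrimes A V hmin
  obtain ⟨-, w, hw⟩ := (isAssociatedPrime_iff (M := V)).mp hass
  have hmem : ∀ a : A, a ∈ M ↔ a • w = 0 := by
    intro a
    rw [hw, Submodule.mem_colon_singleton, Submodule.mem_bot]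
  -- the character
  let _ : Field (A ⧸ M) := Ideal.Quotient.field M
  have hbij : Function.Bijective (algebraMap ℂ (A ⧸ M)) :=
    IsAlgClosed.algebraMap_bijective_of_isIntegral
  let e : ℂ ≃ₐ[ℂ] (A ⧸ M) := AlgEquiv.ofBijective (Algebra.ofId ℂ (A ⧸ M)) hbij
  let χ : A →ₐ[ℂ] ℂ := (e.symm : (A ⧸ M) →ₐ[ℂ] ℂ).comp (Ideal.Quotient.mkₐ ℂ M)
  have hχ : ∀ a : A, a - algebraMap ℂ A (χ a) ∈ M := by
    intro a
    rw [← Ideal.Quotient.eq_zero_iff_mem, map_sub, sub_eq_zero]
    have h1 : e (χ a) = Ideal.Quotient.mk M a := by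
      simp [χ]
    rw [← h1]
    rfl
  refine ⟨χ, w, ?_, ?_, ?_⟩
  · rintro rfl
    apply hM.ne_top
    rw [eq_top_iff]
    intro a _
    rw [hmem]
    simp
  · ext a
    rw [RingHom.mem_ker]
    constructor
    · intro h
      have := hχ a
      rw [h, map_zero, sub_zero] at this
      exact this
    · intro h
      have h2 : Ideal.Quotient.mk M a = 0 := Ideal.Quotient.eq_zero_iff_mem.2 h
      simp [χ, h2]
  · intro a
    have h2 : (a - algebraMap ℂ A (χ a)) • w = 0 := (hmem _).1 (hχ a)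
    rw [sub_smul, sub_eq_zero, algebraMap_smul] at h2
    exact h2


section Main

variable {V : Type*} [AddCommGroup V] [Module ℂ V]

/-- `x ∈ p • L`. -/
def InSmul (p : ℕ) (L : Submodule ℤ V) (x : V) : Prop := ∃ g ∈ L, x = (p : ℂ) • g

theorem InSmul.add {p : ℕ} {L : Submodule ℤ V} {x y : V} (hx : InSmul p L x) (hy : InSmul p L y) :
    InSmul p L (x + y) := by
  obtain ⟨g, hg, rfl⟩ := hx
  obtain ⟨g', hg', rfl⟩ := hy
  exact ⟨g + g', L.add_mem hg hg', by rw [smul_add]⟩

theorem InSmul.zero {p : ℕ} {L : Submodule ℤ V} : InSmul p L (0 : V) :=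
  ⟨0, L.zero_mem, by simp⟩

theorem InSmul.map {p : ℕ} {L : Submodule ℤ V} {x : V} (hx : InSmul p L x) (e : Module.End ℂ V)
    (he : ∀ y ∈ L, e y ∈ L) : InSmul p L (e x) := by
  obtain ⟨g, hg, rfl⟩ := hx
  exact ⟨e g, he g hg, by rw [map_smul]⟩

theorem intCast_smul_mem {L : Submodule ℤ V} (c : ℤ) {x : V} (hx : x ∈ L) : (c : ℂ) • x ∈ L := by
  rw [Int.cast_smul_eq_zsmul]
  exact L.smul_mem c hx

theorem InSmul.intCast_smul {p : ℕ} {L : Submodule ℤ V} {x : V} (hx : InSmul p L x) (c : ℤ) :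
    InSmul p L ((c : ℂ) • x) := by
  obtain ⟨g, hg, rfl⟩ := hx
  exact ⟨(c : ℂ) • g, intCast_smul_mem c hg, by rw [smul_comm]⟩

/-- If `c • f₀ ∈ p L` with `φ f₀ = m₀` prime to `p`, then `p ∣ c`. -/
theorem dvd_of_inSmul {p : ℕ} (hp : p.Prime) {L : Submodule ℤ V} (φ : V →ₗ[ℂ] ℂ)
    (hφL : ∀ x ∈ L, ∃ m : ℤ, φ x = m) {f₀ : V} {m₀ : ℤ} (hφf₀ : φ f₀ = m₀)
    (hm₀ : ¬ (p : ℤ) ∣ m₀) {c : ℤ} (h : InSmul p L ((c : ℂ) • f₀)) : (p : ℤ) ∣ c := by
  obtain ⟨g, hg, hcg⟩ := h
  obtain ⟨m, hm⟩ := hφL g hg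
  have h1 : φ ((c : ℂ) • f₀) = φ ((p : ℂ) • g) := by rw [hcg]
  rw [map_smul, map_smul, hφf₀, hm, smul_eq_mul, smul_eq_mul] at h1
  have h2 : c * m₀ = (p : ℤ) * m := by exact_mod_cast h1
  have hpp : Prime (p : ℤ) := Nat.prime_iff_prime_int.mp hp
  have h3 : (p : ℤ) ∣ c * m₀ := ⟨m, h2⟩
  exact (hpp.dvd_or_dvd h3).resolve_right hm₀

open scoped IsMulCommutative in
/-- **Deligne–Serre lifting lemma**, abstract form. -/
theorem exists_eigenvector_lift {p : ℕ} (hp : p.Prime)
    {T : Type*} [CommRing T] (ρ : T →+* Module.End ℂ V)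
    (L : Submodule ℤ V) (hLfg : L.FG) (hLspan : Submodule.span ℂ (L : Set V) = ⊤)
    (hTL : ∀ t : T, ∀ x ∈ L, ρ t x ∈ L)
    (φ : V →ₗ[ℂ] ℂ) (hφL : ∀ x ∈ L, ∃ m : ℤ, φ x = m)
    (f₀ : V) (hf₀ : f₀ ∈ L) (m₀ : ℤ) (hφf₀ : φ f₀ = m₀) (hm₀ : ¬ (p : ℤ) ∣ m₀)
    (hc : ∀ t : T, ∃ c : ℤ, ∃ g ∈ L, ρ t f₀ - (c : ℂ) • f₀ = (p : ℂ) • g) :
    ∃ (w : V) (θ : T →+* integralClosure ℤ ℂ) (𝔪' : Ideal (integralClosure ℤ ℂ)),
      w ≠ 0 ∧ 𝔪'.IsMaximal ∧ ((p : ℕ) : integralClosure ℤ ℂ) ∈ 𝔪' ∧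
      (∀ t : T, ρ t w = ((θ t : integralClosure ℤ ℂ) : ℂ) • w) ∧
      ∀ (t : T) (c : ℤ), (∃ g ∈ L, ρ t f₀ - (c : ℂ) • f₀ = (p : ℂ) • g) →
        θ t - (c : integralClosure ℤ ℂ) ∈ 𝔪' := by
  have hfinV : Module.Finite ℂ V := finite_of_lattice L hLfg hLspan
  -- the ideal of operators killing `f₀` modulo `p L`
  let 𝔫 : Ideal T :=
    { carrier := {t | InSmul p L (ρ t f₀)}
      add_mem' := fun {a b} ha hb => by
        change InSmul p L (ρ (a + b) f₀)
        rw [map_add, LinearMap.add_apply]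
        exact InSmul.add ha hb
      zero_mem' := by
        change InSmul p L (ρ 0 f₀)
        rw [map_zero, LinearMap.zero_apply]
        exact InSmul.zero
      smul_mem' := fun s t ht => by
        change InSmul p L (ρ (s * t) f₀)
        rw [map_mul, Module.End.mul_apply]
        exact InSmul.map ht (ρ s) (hTL s) }
  have hmem𝔫 : ∀ t : T, t ∈ 𝔫 ↔ InSmul p L (ρ t f₀) := fun t => Iff.rfl
  have hρint : ∀ c : ℤ, ρ (c : T) f₀ = (c : ℂ) • f₀ := by
    intro c
    rw [map_intCast]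
    simp [Int.cast_smul_eq_zsmul]
  -- membership via congruence to an integer
  have hcong : ∀ (t : T) (c : ℤ), (∃ g ∈ L, ρ t f₀ - (c : ℂ) • f₀ = (p : ℂ) • g) →
      t - (c : T) ∈ 𝔫 := by
    intro t c h
    rw [hmem𝔫, map_sub, LinearMap.sub_apply, hρint]
    exact h
  have h𝔫prime : 𝔫.IsPrime := by
    refine ⟨?_, ?_⟩
    · intro htop
      have h1 : (1 : T) ∈ 𝔫 := by rw [htop]; trivial
      rw [hmem𝔫, map_one, Module.End.one_apply] at h1
      have h2 : InSmul p L (((1 : ℤ) : ℂ) • f₀) := by simpa using h1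
      have h3 := dvd_of_inSmul hp φ hφL hφf₀ hm₀ h2
      have hp2 := hp.two_le
      have : (p : ℤ) ≤ 1 := Int.le_of_dvd one_pos h3
      omega
    · intro s t hst
      obtain ⟨cs, gs, hgs, hs⟩ := hc s
      obtain ⟨ct, gt, hgt, ht⟩ := hc t
      have hs' : ρ s f₀ = (cs : ℂ) • f₀ + (p : ℂ) • gs := by rw [← hs]; abel
      have ht' : ρ t f₀ = (ct : ℂ) • f₀ + (p : ℂ) • gt := by rw [← ht]; abel
      rw [hmem𝔫, map_mul, Module.End.mul_apply, ht', map_add, map_smul, map_smul, hs'] at hst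
      -- `(cs * ct) • f₀ ∈ p L`
      have h1 : InSmul p L (((cs * ct : ℤ) : ℂ) • f₀) := by
        have h2 : ((cs * ct : ℤ) : ℂ) • f₀ =
            ((ct : ℂ) • ((cs : ℂ) • f₀ + (p : ℂ) • gs) + (p : ℂ) • ρ s gt) +
              (p : ℂ) • (-((ct : ℂ) • gs) - ρ s gt) := by
          push_cast
          simp only [smul_add, smul_sub, smul_neg, smul_smul]
          ring_nf
          abel_nf
        rw [h2]
        refine InSmul.add hst ⟨_, ?_, rfl⟩
        exact L.sub_mem (L.neg_mem (intCast_smul_mem ct hgs)) (hTL s gt hgt)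
      have h3 := dvd_of_inSmul hp φ hφL hφf₀ hm₀ h1
      have hpp : Prime (p : ℤ) := Nat.prime_iff_prime_int.mp hp
      rcases hpp.dvd_or_dvd h3 with h | h
      · left
        obtain ⟨d, rfl⟩ := h
        rw [hmem𝔫, hs']
        refine ⟨(d : ℂ) • f₀ + gs, L.add_mem (intCast_smul_mem d hf₀) hgs, ?_⟩
        push_cast
        rw [smul_add, smul_smul]
      · right
        obtain ⟨d, rfl⟩ := h
        rw [hmem𝔫, ht']
        refine ⟨(d : ℂ) • f₀ + gt, L.add_mem (intCast_smul_mem d hf₀) hgt, ?_⟩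
        push_cast
        rw [smul_add, smul_smul]
  -- the commutative algebra generated by the operators
  have hcomm : ∀ a ∈ Set.range ρ, ∀ b ∈ Set.range ρ, a * b = b * a := by
    rintro _ ⟨s, rfl⟩ _ ⟨t, rfl⟩
    rw [← map_mul, ← map_mul, mul_comm]
  have : IsMulCommutative (Algebra.adjoin ℂ (Set.range ρ)) :=
    Algebra.isMulCommutative_adjoin ℂ hcomm
  let ρA : T →+* Algebra.adjoin ℂ (Set.range ρ) :=
    RingHom.codRestrict ρ (Algebra.adjoin ℂ (Set.range ρ))
      (fun t => Algebra.subset_adjoin ⟨t, rfl⟩)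
  have hρA : ∀ t : T, ((ρA t : Algebra.adjoin ℂ (Set.range ρ)) : Module.End ℂ V) = ρ t :=
    fun t => rfl
  have hker : (⊥ : Ideal (Algebra.adjoin ℂ (Set.range ρ))).comap ρA ≤ 𝔫 := by
    intro t ht
    rw [Ideal.mem_comap, Ideal.mem_bot] at ht
    have h0 : ρ t = 0 := by rw [← hρA t, ht]; rfl
    rw [hmem𝔫, h0, LinearMap.zero_apply]
    exact InSmul.zero
  obtain ⟨𝔮, h𝔮min, h𝔮le⟩ := Ideal.exists_minimalPrimes_le hker
  obtain ⟨M, hMprime, -, hMcomap⟩ := Ideal.exists_comap_eq_of_mem_minimalPrimes ρA 𝔮 h𝔮min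
  have hfaith : ∀ a : Algebra.adjoin ℂ (Set.range ρ), (∀ v : V, a • v = 0) → a = 0 := by
    intro a ha
    apply Subtype.ext
    apply LinearMap.ext
    intro v
    exact ha v
  obtain ⟨χ, w, hw0, hχker, hχw⟩ := exists_eigenvector_of_isPrime hfaith M
  -- the eigencharacter on `T`
  let θ₀ : T →+* ℂ := (χ : Algebra.adjoin ℂ (Set.range ρ) →+* ℂ).comp ρA
  have hθ₀ker : ∀ t : T, θ₀ t = 0 → t ∈ 𝔫 := by
    intro t ht
    apply h𝔮le
    rw [← hMcomap, Ideal.mem_comap, ← hχker, RingHom.mem_ker]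
    exact ht
  have hθ₀int : ∀ t : T, IsIntegral ℤ (θ₀ t) := by
    intro t
    have h1 : IsIntegral ℤ (ρ t) := isIntegral_of_preserves_lattice L hLfg hLspan (ρ t) (hTL t)
    have h2 : IsIntegral ℤ (ρA t) := by
      rw [← isIntegral_algHom_iff ((Algebra.adjoin ℂ (Set.range ρ)).val.restrictScalars ℤ)
        Subtype.val_injective]
      exact h1
    exact h2.map (χ.restrictScalars ℤ)
  let θ : T →+* integralClosure ℤ ℂ :=
    RingHom.codRestrict θ₀ (integralClosure ℤ ℂ) hθ₀int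
  have hθ : ∀ t : T, ((θ t : integralClosure ℤ ℂ) : ℂ) = θ₀ t := fun t => rfl
  -- going up
  let _ : Algebra T (integralClosure ℤ ℂ) := θ.toAlgebra
  have hint : Algebra.IsIntegral T (integralClosure ℤ ℂ) := by
    refine ⟨fun z => ?_⟩
    exact (integralClosure.isIntegral z).tower_top
  have hker' : (⊥ : Ideal (integralClosure ℤ ℂ)).comap (algebraMap T (integralClosure ℤ ℂ)) ≤ 𝔫 := by
    intro t ht
    rw [Ideal.mem_comap, Ideal.mem_bot] at ht
    apply hθ₀ker
    have : θ t = 0 := ht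
    rw [← hθ, this]
    rfl
  obtain ⟨Q, -, hQprime, hQcomap⟩ :=
    Ideal.exists_ideal_over_prime_of_isIntegral 𝔫 (⊥ : Ideal (integralClosure ℤ ℂ)) hker'
  obtain ⟨𝔪', h𝔪'max, hQ𝔪'⟩ := Ideal.exists_le_maximal Q hQprime.ne_top
  have hθmem : ∀ t : T, t ∈ 𝔫 → θ t ∈ 𝔪' := by
    intro t ht
    apply hQ𝔪'
    rw [← hQcomap] at ht
    exact ht
  refine ⟨w, θ, 𝔪', hw0, h𝔪'max, ?_, ?_, ?_⟩
  · have h1 : ((p : ℤ) : T) - ((0 : ℤ) : T) ∈ 𝔫 := by
      apply hcong
      refine ⟨f₀, hf₀, ?_⟩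
      rw [hρint]
      simp
    have h2 := hθmem _ h1
    simpa using h2
  · intro t
    rw [hθ]
    have := hχw (ρA t)
    exact this
  · intro t c h
    have h2 := hθmem _ (hcong t c h)
    simpa using h2

end Main

end Fermat.Agent.S49.DeligneSerre
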