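-- Part (D) of S49: the mod-3 congruences satisfied by the lattice-realising form.
import Mathlib
import Fermat.Prelude.Def_CuspForm_IntegralLattice
import Fermat.Prelude.Def_CuspForm_IntegralStructure
import Fermat.Prelude.Def_FormalHecke_Eigensystem
import Fermat.Prelude.Def_ModularForm_EisensteinChiNegThree
import Fermat.Prelude.Def_FLTPrelim_Modularity
import Fermat.Prelude.Def_ModularForm_HeckeOperatorForms
import Fermat.Prelude.Thm_ModularFormClass_qCoeff_heckeT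
import Fermat.Prelude.Thm_ModularFormClass_qCoeff_heckeU
import Fermat.Prelude.Thm_CongruenceSubgroup_one_mem_strictPeriods_Gamma0
import Fermat.Prelude.Def_CuspForm_HeckeAlgebra
import Fermat.Prelude.Thm_CuspForm_mem_intLattice_of_mem_heckeAlgebra

set_option autoImplicit false

open CuspForm EisensteinWeightOne CongruenceSubgroup ModularFormClass

namespace Fermat.Agent.S49.Congruence

/-! ### `qCoeff` is linear on cusp forms of level `Γ₀(N)` -/

section Linear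

variable {N : ℕ} {k : ℤ}

theorem qCoeff_add (f g : CuspForm (Gamma0 N) k) (n : ℕ) :
    qCoeff (⇑(f + g)) n = qCoeff f n + qCoeff g n := by
  unfold qCoeff
  rw [FunLike.coe_add, ModularForm.qExpansion_add one_pos (one_mem_strictPeriods_Gamma0 N) f g,
    map_add]

theorem qCoeff_sub (f g : CuspForm (Gamma0 N) k) (n : ℕ) :
    qCoeff (⇑(f - g)) n = qCoeff f n - qCoeff g n := by
  unfold qCoeff
  rw [FunLike.coe_sub, ModularForm.qExpansion_sub one_pos (one_mem_strictPeriods_Gamma0 N) f g,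
    map_sub]

theorem qCoeff_smul (c : ℂ) (f : CuspForm (Gamma0 N) k) (n : ℕ) :
    qCoeff (⇑(c • f)) n = c * qCoeff f n := by
  unfold qCoeff
  rw [FunLike.coe_smul,
    ModularForm.qExpansion_smul one_pos (one_mem_strictPeriods_Gamma0 N) c f]
  simp

theorem qCoeff_zero (n : ℕ) : qCoeff (⇑(0 : CuspForm (Gamma0 N) k)) n = 0 := by
  have h := qCoeff_smul (0 : ℂ) (0 : CuspForm (Gamma0 N) k) n
  rwa [zero_smul, zero_mul] at h

theorem qCoeff_neg (f : CuspForm (Gamma0 N) k) (n : ℕ) :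
    qCoeff (⇑(-f)) n = -qCoeff f n := by
  have h := qCoeff_smul (-1 : ℂ) f n
  rw [neg_one_smul] at h
  rw [h]; ring

/-! ### `q`-coefficients of the Hecke operators on `Γ₀(N)` cusp forms -/

theorem qCoeff_heckeTLin {p : ℕ} (hp : p.Prime) (hpN : ¬ p ∣ N)
    (f : CuspForm (Gamma0 N) k) (n : ℕ) :
    qCoeff (⇑(CuspForm.heckeTLin k hp hpN f)) n =
      qCoeff f (n * p) + if p ∣ n then (p : ℂ) ^ (k - 1) * qCoeff f (n / p) else 0 := by
  rw [CuspForm.coe_heckeTLin_apply,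
    ModularFormClass.qCoeff_heckeT f (one_mem_strictPeriods_Gamma0 N) hp.ne_zero n]
  rfl

theorem qCoeff_heckeULin [NeZero N] {p : ℕ} (hp : p.Prime) (hpN : p ∣ N)
    (f : CuspForm (Gamma0 N) k) (n : ℕ) :
    qCoeff (⇑(CuspForm.heckeULin k hpN f)) n = qCoeff f (n * p) := by
  rw [CuspForm.coe_heckeULin_apply,
    ModularFormClass.qCoeff_heckeU f (one_mem_strictPeriods_Gamma0 N) hp.ne_zero n]
  rfl

end Linear

/-! ### Integrality: the three descriptions of the integral lattice agree -/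

section Lattice

variable {N : ℕ} {k : ℤ}

theorem mem_qIntegralSet_iff (f : CuspForm (Gamma0 N) 2) :
    f ∈ qIntegralSet N ↔ ∀ n : ℕ, ∃ m : ℤ, qCoeff f n = (m : ℂ) := by
  unfold qIntegralSet
  simp only [Set.mem_ofPred_eq, Subring.mem_bot]
  exact forall_congr' fun n => ⟨fun ⟨m, hm⟩ => ⟨m, hm.symm⟩, fun ⟨m, hm⟩ => ⟨m, hm.symm⟩⟩

/-- The additive subgroup of cusp forms with integral `q`-coefficients. -/
def qIntSubgroup (N : ℕ) (k : ℤ) : AddSubgroup (CuspForm (Gamma0 N) k) where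
  carrier := {f | ∀ n : ℕ, ∃ m : ℤ, qCoeff f n = (m : ℂ)}
  zero_mem' := fun n => ⟨0, by rw [qCoeff_zero]; simp⟩
  add_mem' := fun {f g} hf hg n => by
    obtain ⟨m, hm⟩ := hf n
    obtain ⟨m', hm'⟩ := hg n
    exact ⟨m + m', by rw [qCoeff_add, hm, hm']; push_cast; rfl⟩
  neg_mem' := fun {f} hf n => by
    obtain ⟨m, hm⟩ := hf n
    exact ⟨-m, by rw [qCoeff_neg, hm]; push_cast; rfl⟩

theorem mem_qIntSubgroup {f : CuspForm (Gamma0 N) k} :
    f ∈ qIntSubgroup N k ↔ ∀ n : ℕ, ∃ m : ℤ, qCoeff f n = (m : ℂ) := Iff.rfl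

theorem span_int_eq_of_addSubgroup {M : Type*} [AddCommGroup M] (H : AddSubgroup M) :
    ((Submodule.span ℤ (H : Set M) : Submodule ℤ M) : Set M) = (H : Set M) := by
  apply Set.Subset.antisymm
  · intro x hx
    have : Submodule.span ℤ (H : Set M) ≤ AddSubgroup.toIntSubmodule H :=
      Submodule.span_le.2 (fun y hy => hy)
    exact this hx
  · exact Submodule.subset_span

theorem mem_intLattice_iff {f : CuspForm (Gamma0 N) k} :
    f ∈ CuspForm.intLattice N k ↔ ∀ n : ℕ, ∃ m : ℤ, qCoeff f n = (m : ℂ) := by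
  have h := span_int_eq_of_addSubgroup (qIntSubgroup N k)
  have h' : ((CuspForm.intLattice N k : Submodule ℤ (CuspForm (Gamma0 N) k)) :
      Set (CuspForm (Gamma0 N) k)) = ((qIntSubgroup N k : AddSubgroup (CuspForm (Gamma0 N) k)) :
      Set (CuspForm (Gamma0 N) k)) := h
  exact Set.ext_iff.1 h' f

theorem mem_qIntegralLattice_iff {f : CuspForm (Gamma0 N) 2} :
    f ∈ qIntegralLattice N ↔ f ∈ qIntegralSet N := by
  have hset : qIntegralSet N = (qIntSubgroup N 2 : Set _) := by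
    ext g; exact mem_qIntegralSet_iff g
  have h := span_int_eq_of_addSubgroup (qIntSubgroup N 2)
  unfold qIntegralLattice
  rw [hset]
  exact Set.ext_iff.1 h f

theorem mem_qIntegralSet_iff_mem_intLattice {f : CuspForm (Gamma0 N) 2} :
    f ∈ qIntegralSet N ↔ f ∈ CuspForm.intLattice N 2 := by
  rw [mem_qIntegralSet_iff, mem_intLattice_iff]

/-- A cusp form whose `q`-coefficients are integers divisible by `3` is `3` times a cusp form
with integral `q`-coefficients. -/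
theorem exists_eq_three_smul (f : CuspForm (Gamma0 N) k) (c : ℕ → ℤ)
    (hc : ∀ n, qCoeff f n = (c n : ℂ)) (h3 : ∀ n, (3 : ℤ) ∣ c n) :
    ∃ g : CuspForm (Gamma0 N) k, (∀ n : ℕ, ∃ m : ℤ, qCoeff g n = (m : ℂ)) ∧ f = (3 : ℂ) • g := by
  refine ⟨(3 : ℂ)⁻¹ • f, fun n => ?_, ?_⟩
  · obtain ⟨m, hm⟩ := h3 n
    refine ⟨m, ?_⟩
    rw [qCoeff_smul, hc, hm]
    push_cast
    field_simp
  · rw [smul_smul, mul_inv_cancel₀ (by norm_num : (3 : ℂ) ≠ 0), one_smul]

end Lattice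

/-! ### Arithmetic modulo `3` -/

section Arithmetic

theorem coeff_e1Chi3In_int (j : ℕ) :
    (e1Chi3In ℤ).coeff j = if j = 0 then 1 else 6 * sigmaChi j := by
  simp [e1Chi3In, e1Chi3]

theorem three_dvd_coeff_e1Chi3In_sub (j : ℕ) :
    (3 : ℤ) ∣ (e1Chi3In ℤ).coeff j - if j = 0 then 1 else 0 := by
  rw [coeff_e1Chi3In_int]
  split_ifs with h
  · simp
  · exact ⟨2 * sigmaChi j, by ring⟩

/-- `bridgeProduct a ≡ ∑ a n qⁿ (mod 3)` because the weight-one Eisenstein series is `≡ 1`. -/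
theorem three_dvd_coeff_bridgeProduct_sub (a : ℕ → ℤ) (n : ℕ) :
    (3 : ℤ) ∣ (bridgeProduct a).coeff n - a n := by
  have h1 : (bridgeProduct a).coeff n =
      ∑ p ∈ Finset.HasAntidiagonal.antidiagonal n, a p.1 * (e1Chi3In ℤ).coeff p.2 := by
    simp [bridgeProduct, PowerSeries.coeff_mul]
  have h2 : a n = ∑ p ∈ Finset.HasAntidiagonal.antidiagonal n,
      a p.1 * (if p.2 = 0 then 1 else 0) := by
    simp only [mul_ite, mul_one, mul_zero]
    rw [Finset.sum_ite, Finset.sum_const_zero, add_zero]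
    have : (Finset.HasAntidiagonal.antidiagonal n).filter (fun p => p.2 = 0) = {(n, 0)} := by
      ext ⟨i, j⟩
      simp only [Finset.mem_filter, Finset.HasAntidiagonal.mem_antidiagonal,
        Finset.mem_singleton, Prod.mk.injEq]
      omega
    rw [this, Finset.sum_singleton]
  have h3 : (bridgeProduct a).coeff n - a n =
      ∑ p ∈ Finset.HasAntidiagonal.antidiagonal n,
        a p.1 * ((e1Chi3In ℤ).coeff p.2 - if p.2 = 0 then 1 else 0) := by
    rw [h1]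
    conv_lhs => rw [h2]
    rw [← Finset.sum_sub_distrib]
    exact Finset.sum_congr rfl fun p _ => (mul_sub _ _ _).symm
  rw [h3]
  apply Finset.dvd_sum
  intro p _
  exact Dvd.dvd.mul_left (three_dvd_coeff_e1Chi3In_sub p.2) _

theorem three_dvd_natCast_sub_chiNegThree (ℓ : ℕ) : (3 : ℤ) ∣ (ℓ : ℤ) - chiNegThree ℓ := by
  unfold chiNegThree
  have h := Nat.div_add_mod ℓ 3
  have h3 : ℓ % 3 < 3 := Nat.mod_lt _ (by norm_num)
  split_ifs with h1 h2
  · exact ⟨(ℓ / 3 : ℕ), by push_cast; omega⟩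
  · exact ⟨(ℓ / 3 : ℕ) + 1, by push_cast; omega⟩
  · exact ⟨(ℓ / 3 : ℕ), by push_cast; omega⟩

theorem three_dvd_heckeT_coeff {N : ℕ} {a af : ℕ → ℤ}
    (heig : FormalHecke.IsEigensystem
      (fun ℓ => if ℓ ∣ N then 0 else ((chiNegThree ℓ : ℤ) : ℤ)) a)
    (hcong : ∀ n, (3 : ℤ) ∣ af n - a n) {ℓ : ℕ} (hℓ : ℓ.Prime) (hℓN : ¬ ℓ ∣ N) (n : ℕ) :
    (3 : ℤ) ∣ af (n * ℓ) + (if ℓ ∣ n then (ℓ : ℤ) * af (n / ℓ) else 0) - a ℓ * af n := by
  have h := heig.2 ℓ hℓ n
  simp only [if_neg hℓN] at h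
  obtain ⟨k1, hk1⟩ := hcong (n * ℓ)
  obtain ⟨k2, hk2⟩ := hcong n
  obtain ⟨k3, hk3⟩ := hcong (n / ℓ)
  obtain ⟨k4, hk4⟩ := three_dvd_natCast_sub_chiNegThree ℓ
  rw [mul_comm ℓ n] at h
  by_cases hd : ℓ ∣ n
  · simp only [if_pos hd] at h ⊢
    refine ⟨k1 + k4 * af (n / ℓ) + chiNegThree ℓ * k3 - a ℓ * k2, ?_⟩
    linear_combination hk1 + af (n / ℓ) * hk4 + chiNegThree ℓ * hk3 - a ℓ * hk2 + h
  · simp only [if_neg hd, mul_zero, add_zero] at h ⊢
    refine ⟨k1 - a ℓ * k2, ?_⟩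
    linear_combination hk1 - a ℓ * hk2 + h

theorem three_dvd_heckeU_coeff {N : ℕ} {a af : ℕ → ℤ}
    (heig : FormalHecke.IsEigensystem
      (fun ℓ => if ℓ ∣ N then 0 else ((chiNegThree ℓ : ℤ) : ℤ)) a)
    (hcong : ∀ n, (3 : ℤ) ∣ af n - a n) {q : ℕ} (hq : q.Prime) (hqN : q ∣ N) (n : ℕ) :
    (3 : ℤ) ∣ af (n * q) - a q * af n := by
  have h := heig.2 q hq n
  simp only [if_pos hqN, zero_mul, add_zero] at h
  obtain ⟨k1, hk1⟩ := hcong (n * q)
  obtain ⟨k2, hk2⟩ := hcong n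
  rw [mul_comm q n] at h
  refine ⟨k1 - a q * k2, ?_⟩
  linear_combination hk1 - a q * hk2 + h

theorem not_three_dvd_af_one {e a af : ℕ → ℤ} (heig : FormalHecke.IsEigensystem e a)
    (hcong : ∀ n, (3 : ℤ) ∣ af n - a n) : ¬ (3 : ℤ) ∣ af 1 := by
  intro h
  have h1 := hcong 1
  rw [heig.1] at h1
  have : (3 : ℤ) ∣ 1 := by
    have := dvd_sub h h1
    rwa [sub_sub_cancel] at this
  omega

/-- An integer that is `3` times an algebraic integer is divisible by `3`. -/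
theorem three_dvd_of_eq_three_mul_isIntegral {m : ℤ} {β : ℂ} (hβ : IsIntegral ℤ β)
    (h : (m : ℂ) = 3 * β) : (3 : ℤ) ∣ m := by
  have hβ' : β = algebraMap ℚ ℂ ((m : ℚ) / 3) := by
    rw [eq_ratCast (algebraMap ℚ ℂ)]
    push_cast
    rw [h]; field_simp
  rw [hβ'] at hβ
  have hQ : IsIntegral ℤ ((m : ℚ) / 3) :=
    (isIntegral_algebraMap_iff (algebraMap ℚ ℂ).injective).mp hβ
  obtain ⟨j, hj⟩ := IsIntegrallyClosed.isIntegral_iff.mp hQ
  rw [eq_intCast] at hj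
  refine ⟨j, ?_⟩
  have : ((m : ℤ) : ℚ) = ((3 * j : ℤ) : ℚ) := by
    push_cast; rw [hj]; field_simp
  exact_mod_cast this

end Arithmetic

/-! ### The lattice-realising form is a Hecke eigenform modulo `3` -/

section Main

variable {N : ℕ}

/-- Unpacking `IsLatticeRealized`: the realising form is congruent to `a` itself modulo `3`. -/
theorem exists_form_of_isLatticeRealized {a : ℕ → ℤ} (hreal : IsLatticeRealized N a) :
    ∃ (f : CuspForm (Gamma0 N) 2) (af : ℕ → ℤ), f ∈ qIntegralSet N ∧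
      (∀ n, (af n : ℂ) = qCoeff f n) ∧ ∀ n, (3 : ℤ) ∣ af n - a n := by
  obtain ⟨f, hf, af, haf, h3⟩ := hreal
  refine ⟨f, af, hf, haf, fun n => ?_⟩
  have := dvd_add (h3 n) (three_dvd_coeff_bridgeProduct_sub a n)
  rwa [sub_add_sub_cancel] at this

theorem heckeTLin_sub_smul_eq_three_smul {a af : ℕ → ℤ}
    (heig : FormalHecke.IsEigensystem
      (fun ℓ => if ℓ ∣ N then 0 else ((chiNegThree ℓ : ℤ) : ℤ)) a)
    {f : CuspForm (Gamma0 N) 2} (haf : ∀ n, (af n : ℂ) = qCoeff f n)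
    (hcong : ∀ n, (3 : ℤ) ∣ af n - a n) {ℓ : ℕ} (hℓ : ℓ.Prime) (hℓN : ¬ ℓ ∣ N) :
    ∃ g ∈ qIntegralSet N,
      CuspForm.heckeTLin 2 hℓ hℓN f - ((a ℓ : ℤ) : ℂ) • f = (3 : ℂ) • g := by
  obtain ⟨g, hg, hfg⟩ := exists_eq_three_smul
    (CuspForm.heckeTLin 2 hℓ hℓN f - ((a ℓ : ℤ) : ℂ) • f)
    (fun n => af (n * ℓ) + (if ℓ ∣ n then (ℓ : ℤ) * af (n / ℓ) else 0) - a ℓ * af n)
    (fun n => by
      rw [qCoeff_sub, qCoeff_smul, qCoeff_heckeTLin, ← haf, ← haf, ← haf,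
        show (2 : ℤ) - 1 = 1 by norm_num, zpow_one]
      split_ifs <;> push_cast <;> ring)
    (fun n => three_dvd_heckeT_coeff heig hcong hℓ hℓN n)
  exact ⟨g, (mem_qIntegralSet_iff g).2 hg, hfg⟩

theorem heckeULin_sub_smul_eq_three_smul [NeZero N] {a af : ℕ → ℤ}
    (heig : FormalHecke.IsEigensystem
      (fun ℓ => if ℓ ∣ N then 0 else ((chiNegThree ℓ : ℤ) : ℤ)) a)
    {f : CuspForm (Gamma0 N) 2} (haf : ∀ n, (af n : ℂ) = qCoeff f n)
    (hcong : ∀ n, (3 : ℤ) ∣ af n - a n) {q : ℕ} (hq : q.Prime) (hqN : q ∣ N) :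
    ∃ g ∈ qIntegralSet N,
      CuspForm.heckeULin 2 hqN f - ((a q : ℤ) : ℂ) • f = (3 : ℂ) • g := by
  obtain ⟨g, hg, hfg⟩ := exists_eq_three_smul
    (CuspForm.heckeULin 2 hqN f - ((a q : ℤ) : ℂ) • f)
    (fun n => af (n * q) - a q * af n)
    (fun n => by
      rw [qCoeff_sub, qCoeff_smul, qCoeff_heckeULin hq, ← haf, ← haf]
      push_cast; ring)
    (fun n => three_dvd_heckeU_coeff heig hcong hq hqN n)
  exact ⟨g, (mem_qIntegralSet_iff g).2 hg, hfg⟩

theorem ne_three_smul_of_mem_qIntegralSet {e a af : ℕ → ℤ}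
    (heig : FormalHecke.IsEigensystem e a)
    {f : CuspForm (Gamma0 N) 2} (haf : ∀ n, (af n : ℂ) = qCoeff f n)
    (hcong : ∀ n, (3 : ℤ) ∣ af n - a n) (g : CuspForm (Gamma0 N) 2) (hg : g ∈ qIntegralSet N) :
    f ≠ (3 : ℂ) • g := by
  intro hfg
  obtain ⟨m, hm⟩ := (mem_qIntegralSet_iff g).1 hg 1
  apply not_three_dvd_af_one heig hcong
  refine ⟨m, ?_⟩
  have : (af 1 : ℂ) = ((3 * m : ℤ) : ℂ) := by
    rw [haf, hfg, qCoeff_smul, hm]; push_cast; ring
  exact_mod_cast this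

/-! ### The whole Hecke algebra acts through integers modulo `3` -/

theorem heckeAlgebra_apply_mem_qIntegralSet [NeZero N] {S : Set ℕ}
    {t : Module.End ℂ (CuspForm (Gamma0 N) 2)} (ht : t ∈ CuspForm.heckeAlgebra N 2 S)
    {g : CuspForm (Gamma0 N) 2} (hg : g ∈ qIntegralSet N) : t g ∈ qIntegralSet N :=
  mem_qIntegralSet_iff_mem_intLattice.2
    (CuspForm.mem_intLattice_of_mem_heckeAlgebra (by norm_num) ht
      (mem_qIntegralSet_iff_mem_intLattice.1 hg))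

theorem add_mem_qIntegralSet {f g : CuspForm (Gamma0 N) 2} (hf : f ∈ qIntegralSet N)
    (hg : g ∈ qIntegralSet N) : f + g ∈ qIntegralSet N := by
  rw [mem_qIntegralSet_iff] at *
  exact (qIntSubgroup N 2).add_mem hf hg

theorem zsmul_mem_qIntegralSet (c : ℤ) {g : CuspForm (Gamma0 N) 2}
    (hg : g ∈ qIntegralSet N) : ((c : ℤ) : ℂ) • g ∈ qIntegralSet N := by
  rw [mem_qIntegralSet_iff] at *
  intro n
  obtain ⟨m, hm⟩ := hg n
  exact ⟨c * m, by rw [qCoeff_smul, hm]; push_cast; rfl⟩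

theorem zero_mem_qIntegralSet : (0 : CuspForm (Gamma0 N) 2) ∈ qIntegralSet N := by
  rw [mem_qIntegralSet_iff]
  exact (qIntSubgroup N 2).zero_mem

/-- Every element of the Hecke algebra acts on the lattice-realising form as an integer
modulo `3` times the integral lattice. -/
theorem exists_int_sub_smul_eq_three_smul [NeZero N] {S : Set ℕ} {a af : ℕ → ℤ}
    (heig : FormalHecke.IsEigensystem
      (fun ℓ => if ℓ ∣ N then 0 else ((chiNegThree ℓ : ℤ) : ℤ)) a)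
    {f : CuspForm (Gamma0 N) 2} (haf : ∀ n, (af n : ℂ) = qCoeff f n)
    (hcong : ∀ n, (3 : ℤ) ∣ af n - a n)
    {t : Module.End ℂ (CuspForm (Gamma0 N) 2)} (ht : t ∈ CuspForm.heckeAlgebra N 2 S) :
    ∃ (c : ℤ) (g : CuspForm (Gamma0 N) 2), g ∈ qIntegralSet N ∧
      t f - ((c : ℤ) : ℂ) • f = (3 : ℂ) • g := by
  unfold CuspForm.heckeAlgebra at ht
  induction ht using Algebra.adjoin_induction with
  | mem x hx =>
    rcases hx with ⟨ℓ, hℓ, hℓN, -, rfl⟩ | ⟨q, hqN, hq, -, rfl⟩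
    · obtain ⟨g, hg, h⟩ := heckeTLin_sub_smul_eq_three_smul heig haf hcong hℓ hℓN
      exact ⟨a ℓ, g, hg, h⟩
    · obtain ⟨g, hg, h⟩ := heckeULin_sub_smul_eq_three_smul heig haf hcong hq hqN
      exact ⟨a q, g, hg, h⟩
  | algebraMap r =>
    refine ⟨r, 0, zero_mem_qIntegralSet, ?_⟩
    rw [smul_zero, sub_eq_zero, Algebra.algebraMap_eq_smul_one, LinearMap.smul_apply,
      Module.End.one_apply, Int.cast_smul_eq_zsmul]
  | add x y hx hy ihx ihy =>
    obtain ⟨c1, g1, hg1, h1⟩ := ihx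
    obtain ⟨c2, g2, hg2, h2⟩ := ihy
    refine ⟨c1 + c2, g1 + g2, add_mem_qIntegralSet hg1 hg2, ?_⟩
    rw [LinearMap.add_apply, smul_add, ← h1, ← h2]
    push_cast
    rw [add_smul]
    abel
  | mul x y hx hy ihx ihy =>
    obtain ⟨c1, g1, hg1, h1⟩ := ihx
    obtain ⟨c2, g2, hg2, h2⟩ := ihy
    have hxg2 : x g2 ∈ qIntegralSet N := heckeAlgebra_apply_mem_qIntegralSet (S := S) hx hg2
    refine ⟨c1 * c2, ((c2 : ℤ) : ℂ) • g1 + x g2,
      add_mem_qIntegralSet (zsmul_mem_qIntegralSet c2 hg1) hxg2, ?_⟩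
    have e2 : y f = ((c2 : ℤ) : ℂ) • f + (3 : ℂ) • g2 := by rw [← h2]; abel
    have e1 : x f = ((c1 : ℤ) : ℂ) • f + (3 : ℂ) • g1 := by rw [← h1]; abel
    rw [Module.End.mul_apply, e2, map_add, map_smul, map_smul, e1]
    push_cast
    simp only [smul_add, smul_smul]
    module

end Main

end Fermat.Agent.S49.Congruence
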