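/-
S49: abstract core of the Deligne–Serre lifting lemma.
-/
import Mathlib

set_option autoImplicit false

namespace Fermat.Agent.S49.DSCore

section Abstract

variable {A : Type*} [CommRing A] [Algebra ℂ A] [Module.Finite ℂ A]

/-- Every maximal ideal of a finite-dimensional commutative `ℂ`-algebra is the kernel of a
`ℂ`-algebra character. -/
theorem exists_character (M : Ideal A) [hM : M.IsMaximal] :
    ∃ ψ : A →ₐ[ℂ] ℂ, RingHom.ker (ψ : A →+* ℂ) = M := by
  letI : Field (A ⧸ M) := Ideal.Quotient.field M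
  have hint : Algebra.IsIntegral ℂ (A ⧸ M) := Algebra.IsIntegral.of_finite ℂ (A ⧸ M)
  have hbij : Function.Bijective (algebraMap ℂ (A ⧸ M)) :=
    IsAlgClosed.algebraMap_bijective_of_isIntegral
  let e : ℂ ≃ₐ[ℂ] (A ⧸ M) := AlgEquiv.ofBijective (Algebra.ofId ℂ (A ⧸ M)) hbij
  refine ⟨(e.symm : (A ⧸ M) →ₐ[ℂ] ℂ).comp (Ideal.Quotient.mkₐ ℂ M), ?_⟩
  ext a
  simp [RingHom.mem_ker, Ideal.Quotient.eq_zero_iff_mem]

variable {V : Type*} [AddCommGroup V] [Module A V] [Module.Finite A V]

/-- In a faithful finite module over an Artinian ring every maximal ideal kills some nonzero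
vector. -/
theorem exists_ne_zero_forall_mem_smul_eq_zero [IsArtinianRing A]
    (hfaith : Module.annihilator A V = ⊥) (M : Ideal A) [hM : M.IsMaximal] :
    ∃ w : V, w ≠ 0 ∧ ∀ a ∈ M, a • w = 0 := by
  have hmin : M ∈ (Module.annihilator A V).minimalPrimes := by
    rw [hfaith]
    refine ⟨⟨hM.isPrime, bot_le⟩, ?_⟩
    rintro q ⟨hq, -⟩ hqM
    have hqmax : q.IsMaximal := IsArtinianRing.isMaximal_of_isPrime q
    exact (hqmax.eq_of_le hM.ne_top hqM).ge
  have hass := Module.associatedPrimes.minimalPrimes_annihilator_subset_associatedPrimes A V hmin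
  obtain ⟨-, w, hw⟩ := (isAssociatedPrime_iff).mp hass
  refine ⟨w, ?_, ?_⟩
  · rintro rfl
    apply hM.ne_top
    rw [hw, eq_top_iff]
    intro a _
    rw [Submodule.mem_colon_singleton]
    simp
  · intro a ha
    rw [hw, Submodule.mem_colon_singleton] at ha
    simpa using ha

/-- Abstract pigeonhole step: if a multiplicatively closed additive subgroup `J` of a
finite-dimensional commutative `ℂ`-algebra does not contain `1`, then some character of the
algebra does not take the value `1` on `J`. -/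
theorem exists_character_forall_ne_one [IsArtinianRing A] (J : AddSubgroup A)
    (hmul : ∀ x ∈ J, ∀ y ∈ J, x * y ∈ J) (h1 : (1 : A) ∉ J) :
    ∃ (M : Ideal A) (_ : M.IsMaximal) (ψ : A →ₐ[ℂ] ℂ),
      RingHom.ker (ψ : A →+* ℂ) = M ∧ ∀ x ∈ J, ψ x ≠ 1 := by
  by_contra hcon
  push Not at hcon
  -- choose characters and elements
  have hch : ∀ M : MaximalSpectrum A, ∃ ψ : A →ₐ[ℂ] ℂ, RingHom.ker (ψ : A →+* ℂ) = M.asIdeal :=
    fun M => by
      haveI := M.isMaximal
      exact exists_character M.asIdeal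
  choose ψ hψ using hch
  have hx : ∀ M : MaximalSpectrum A, ∃ x ∈ J, ψ M x = 1 := fun M =>
    hcon M.asIdeal M.isMaximal (ψ M) (hψ M)
  choose x hxJ hx1 using hx
  -- the submonoid `1 - J`
  let K : Submonoid A :=
    { carrier := {z | 1 - z ∈ J}
      one_mem' := by simp [J.zero_mem]
      mul_mem' := by
        intro a b ha hb
        have hab : 1 - a * b = (1 - a) + (1 - b) - (1 - a) * (1 - b) := by ring
        show 1 - a * b ∈ J
        rw [hab]
        exact J.sub_mem (J.add_mem ha hb) (hmul _ ha _ hb) }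
  haveI : Finite (MaximalSpectrum A) := inferInstance
  haveI : Fintype (MaximalSpectrum A) := Fintype.ofFinite _
  let P : A := ∏ M : MaximalSpectrum A, (1 - x M)
  have hPK : P ∈ K := by
    apply Submonoid.prod_mem
    intro M _
    show 1 - (1 - x M) ∈ J
    simpa using hxJ M
  have hPjac : P ∈ Ideal.jacobson (⊥ : Ideal A) := by
    rw [Ideal.jacobson, Ideal.mem_sInf]
    rintro M ⟨-, hM⟩
    let M' : MaximalSpectrum A := ⟨M, hM⟩
    have hker : P ∈ RingHom.ker (ψ M' : A →+* ℂ) := by
      rw [RingHom.mem_ker]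
      show ψ M' P = 0
      rw [map_prod]
      apply Finset.prod_eq_zero (Finset.mem_univ M')
      rw [map_sub, map_one, hx1 M', sub_self]
    rw [hψ M'] at hker
    exact hker
  obtain ⟨n, hn⟩ := (IsArtinianRing.isNilpotent_jacobson_bot (R := A))
  have hPn : P ^ n = 0 := by
    have : P ^ n ∈ (Ideal.jacobson (⊥ : Ideal A)) ^ n := Ideal.pow_mem_pow hPjac n
    rw [hn] at this
    simpa using this
  have hPnK : P ^ n ∈ K := K.pow_mem hPK n
  apply h1
  have : 1 - P ^ n ∈ J := hPnK
  rwa [hPn, sub_zero] at this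

end Abstract

section Concrete

open scoped IsMulCommutative

variable {V : Type*} [AddCommGroup V] [Module ℂ V]

local notation "Zb" => integralClosure ℤ ℂ

/-- The `Zb`-span of a set `I ⊆ T` that is stable under left multiplication by `T` is closed
under multiplication. -/
theorem span_mul_mem (T : Subalgebra ℤ (Module.End ℂ V)) (I : Set (Module.End ℂ V))
    (hIT : I ⊆ T) (hImul : ∀ s ∈ T, ∀ t ∈ I, s * t ∈ I) {x y : Module.End ℂ V}
    (hx : x ∈ Submodule.span Zb I) (hy : y ∈ Submodule.span Zb I) :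
    x * y ∈ Submodule.span Zb I := by
  induction hx using Submodule.span_induction with
  | mem x hx =>
    induction hy using Submodule.span_induction with
    | mem y hy => exact Submodule.subset_span (hImul x (hIT hx) y hy)
    | zero => simp
    | add y z _ _ hy hz => rw [mul_add]; exact add_mem hy hz
    | smul c y _ hy =>
      have : x * c • y = c • (x * y) := by
        rw [Subalgebra.smul_def, Subalgebra.smul_def, mul_smul_comm]
      rw [this]; exact Submodule.smul_mem _ c hy
  | zero => simp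
  | add x z _ _ hx hz => rw [add_mul]; exact add_mem hx hz
  | smul c x _ hx =>
    have : c • x * y = c • (x * y) := by
      rw [Subalgebra.smul_def, Subalgebra.smul_def, smul_mul_assoc]
    rw [this]; exact Submodule.smul_mem _ c hx

variable [FiniteDimensional ℂ V]

/-- **Deligne–Serre core.** Let `T` be a commutative ring of integral endomorphisms of a
finite-dimensional complex vector space `V` and `I ⊆ T` a subset stable under left multiplication
by `T`. Then either `1` is a `ℤ̄`-linear combination of elements of `I`, or there is a simultaneous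
eigenvector `w` of `T` with eigencharacter `χ : T → ℤ̄` and a maximal ideal `m` of `ℤ̄` such that
`χ(I) ⊆ m`. -/
theorem ds_core (T : Subalgebra ℤ (Module.End ℂ V))
    (hcomm : ∀ s ∈ T, ∀ t ∈ T, Commute s t)
    (hint : ∀ t ∈ T, IsIntegral ℤ t)
    (I : Set (Module.End ℂ V)) (hIT : I ⊆ T)
    (hImul : ∀ s ∈ T, ∀ t ∈ I, s * t ∈ I) :
    (1 : Module.End ℂ V) ∈ Submodule.span Zb I ∨
    ∃ (w : V) (χ : T →+* ℂ) (m : Ideal Zb), w ≠ 0 ∧
      (∀ t : T, (t : Module.End ℂ V) w = χ t • w) ∧ m.IsMaximal ∧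
      (∀ t : T, ∃ c : Zb, (c : ℂ) = χ t) ∧
      (∀ t : T, (t : Module.End ℂ V) ∈ I → ∃ c ∈ m, (c : ℂ) = χ t) := by
  by_cases h1 : (1 : Module.End ℂ V) ∈ Submodule.span Zb I
  · exact Or.inl h1
  right
  -- the commutative finite-dimensional algebra generated by `T`
  let A : Subalgebra ℂ (Module.End ℂ V) := Algebra.adjoin ℂ (T : Set (Module.End ℂ V))
  haveI : IsMulCommutative A :=
    Algebra.isMulCommutative_adjoin ℂ (fun s hs t ht => hcomm s hs t ht)
  letI : CommRing A := inferInstance
  haveI h2 : IsArtinianRing A := IsArtinianRing.of_finite ℂ A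
  haveI h3 : Module.Finite A V := Module.Finite.of_restrictScalars_finite ℂ A V
  have hfaith : Module.annihilator A V = ⊥ := by
    rw [eq_bot_iff]
    intro a ha
    rw [Module.mem_annihilator] at ha
    rw [Ideal.mem_bot]
    apply Subtype.ext
    apply LinearMap.ext
    intro v
    exact ha v
  -- the additive subgroup `J`
  let J : AddSubgroup A :=
    AddSubgroup.comap (A.val.toLinearMap.toAddMonoidHom) (Submodule.span Zb I).toAddSubgroup
  have hJmem : ∀ x : A, x ∈ J ↔ (x : Module.End ℂ V) ∈ Submodule.span Zb I := fun x => Iff.rfl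
  have hJmul : ∀ x ∈ J, ∀ y ∈ J, x * y ∈ J := by
    intro x hx y hy
    rw [hJmem] at hx hy ⊢
    exact span_mul_mem T I hIT hImul hx hy
  have hJ1 : (1 : A) ∉ J := fun h => h1 ((hJmem 1).mp h)
  obtain ⟨M, hM, ψ, hker, hne⟩ := exists_character_forall_ne_one J hJmul hJ1
  obtain ⟨w, hw0, hw⟩ := exists_ne_zero_forall_mem_smul_eq_zero hfaith M
  -- the inclusion `T → A`
  let ι : T →+* A :=
    { toFun := fun t => ⟨t.1, Algebra.subset_adjoin t.2⟩
      map_one' := rfl
      map_mul' := fun _ _ => rfl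
      map_zero' := rfl
      map_add' := fun _ _ => rfl }
  let χ : T →+* ℂ := (ψ : A →+* ℂ).comp ι
  have hχint : ∀ t : T, IsIntegral ℤ (χ t) := by
    intro t
    have ht : IsIntegral ℤ (ι t : A) := by
      obtain ⟨p, hp, hp0⟩ := hint t.1 t.2
      refine ⟨p, hp, ?_⟩
      apply Subtype.ext
      have := Polynomial.hom_eval₂ p (algebraMap ℤ A) (A.val : A →+* Module.End ℂ V) (ι t)
      rw [show ((A.val : A →+* Module.End ℂ V).comp (algebraMap ℤ A))
        = algebraMap ℤ (Module.End ℂ V) from Subsingleton.elim _ _] at this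
      exact this.trans hp0
    exact map_isIntegral_int (ψ : A →+* ℂ) ht
  have heig : ∀ t : T, (t : Module.End ℂ V) w = χ t • w := by
    intro t
    have hmem : ι t - algebraMap ℂ A (ψ (ι t)) ∈ M := by
      rw [← hker, RingHom.mem_ker]
      show ψ (ι t - algebraMap ℂ A (ψ (ι t))) = 0
      rw [map_sub, AlgHom.commutes]
      simp
    have h0 := hw _ hmem
    rw [sub_smul, sub_eq_zero, algebraMap_smul] at h0
    exact h0
  -- the ideal generated by `χ(I)`
  let 𝔞 : Ideal Zb := Ideal.span {c : Zb | ∃ t : T, (t : Module.End ℂ V) ∈ I ∧ (c : ℂ) = χ t}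
  have h𝔞 : ∀ c ∈ 𝔞, ∃ x ∈ J, ψ x = (c : ℂ) := by
    intro c hc
    induction hc using Submodule.span_induction with
    | mem c hc =>
      obtain ⟨t, htI, htc⟩ := hc
      exact ⟨ι t, (hJmem _).mpr (Submodule.subset_span htI), htc.symm⟩
    | zero => exact ⟨0, J.zero_mem, by simp⟩
    | add c d _ _ hc hd =>
      obtain ⟨x, hx, hxc⟩ := hc
      obtain ⟨y, hy, hyd⟩ := hd
      exact ⟨x + y, J.add_mem hx hy, by rw [map_add, hxc, hyd]; simp⟩
    | smul d c _ hc =>
      obtain ⟨x, hx, hxc⟩ := hc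
      refine ⟨(d : ℂ) • x, ?_, ?_⟩
      · rw [hJmem] at hx ⊢
        have : (((d : ℂ) • x : A) : Module.End ℂ V) = d • (x : Module.End ℂ V) := rfl
        rw [this]
        exact Submodule.smul_mem _ d hx
      · rw [map_smul, hxc]
        simp
  have h𝔞top : 𝔞 ≠ ⊤ := by
    intro htop
    have h1mem : (1 : Zb) ∈ 𝔞 := by rw [htop]; trivial
    obtain ⟨x, hx, hx1⟩ := h𝔞 1 h1mem
    exact hne x hx (by simpa using hx1)
  obtain ⟨m, hm, hle⟩ := Ideal.exists_le_maximal 𝔞 h𝔞top
  refine ⟨w, χ, m, hw0, heig, hm, fun t => ⟨⟨χ t, hχint t⟩, rfl⟩, fun t htI => ?_⟩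
  exact ⟨⟨χ t, hχint t⟩, hle (Ideal.subset_span ⟨t, htI, rfl⟩), rfl⟩

end Concrete

end Fermat.Agent.S49.DSCore
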